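import Mathlib
import Fermat.Prelude.Def_EllipticCurve_FrobeniusTrace
import Fermat.Prelude.Def_FLTPrelim_Ramification

/-!
# Existence of Frobenius elements in the absolute Galois group of the rationals

For every prime `ℓ` we construct a valuation subring `A` of `AlgebraicClosure ℚ` lying over `ℓ`
and an element `σ` of its decomposition group acting as `x ↦ x ^ ℓ` on the residue field.
-/

set_option autoImplicit false
set_option linter.style.haveILetI false

namespace Fermat.Agent.H9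

open Polynomial
open scoped Pointwise

/-- Kaplansky's `u, u⁻¹` lemma: a local ring integrally closed in a field `L`; a root of a
polynomial with a unit coefficient is in `R` or its inverse is. -/
theorem mem_range_or_inv_mem_range_of_aeval_eq_zero
    {R : Type*} [CommRing R] [IsLocalRing R] {L : Type*} [Field L] [Algebra R L]
    (hR : ∀ x : L, IsIntegral R x → x ∈ (algebraMap R L).range) :
    ∀ (n : ℕ) (f : R[X]) (u : L), f.natDegree ≤ n → aeval u f = 0 → (∃ i, IsUnit (f.coeff i)) →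
      u ∈ (algebraMap R L).range ∨ u⁻¹ ∈ (algebraMap R L).range := by
  intro n
  induction n with
  | zero =>
    intro f u hdeg hu ⟨i, hi⟩
    exfalso
    have hf : f = C (f.coeff 0) := eq_C_of_natDegree_le_zero hdeg
    rw [hf, aeval_C] at hu
    rcases Nat.eq_zero_or_pos i with rfl | hpos
    · have := hi.map (algebraMap R L)
      rw [hu] at this
      exact not_isUnit_zero this
    · rw [hf, coeff_C, if_neg hpos.ne'] at hi
      exact not_isUnit_zero hi
  | succ n ih =>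
    intro f u hdeg hu ⟨j, hj⟩
    by_cases hdeg' : f.natDegree ≤ n
    · exact ih f u hdeg' hu ⟨j, hj⟩
    have hn : f.natDegree = n + 1 := by omega
    obtain ⟨c, hc⟩ := hR _ (isIntegral_leadingCoeff_smul f u hu)
    rw [Algebra.smul_def] at hc
    set g := f.eraseLead + C c * X ^ n with hg
    have hgdeg : g.natDegree ≤ n := by
      refine (natDegree_add_le _ _).trans (max_le ?_ (natDegree_C_mul_X_pow_le c n))
      have := eraseLead_natDegree_le f
      omega
    have hfu : aeval u f.eraseLead = - (algebraMap R L f.leadingCoeff * u ^ (n + 1)) := by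
      have h := congrArg (aeval u) (eraseLead_add_C_mul_X_pow f)
      rw [hu, map_add, map_mul, aeval_C, map_pow, aeval_X, hn] at h
      exact eq_neg_of_add_eq_zero_left h
    have hgu : aeval u g = 0 := by
      rw [hg, map_add, hfu, map_mul, aeval_C, map_pow, aeval_X, hc]
      ring
    by_cases hex : ∃ i, IsUnit (g.coeff i)
    · exact ih g u hgdeg hgu hex
    have hex' : ∀ i, ¬ IsUnit (g.coeff i) := fun i hi => hex ⟨i, hi⟩
    have hcoeff : ∀ i, g.coeff i = (if i = n + 1 then 0 else f.coeff i) + (if i = n then c else 0) := by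
      intro i
      rw [hg, coeff_add, eraseLead_coeff, hn, coeff_C_mul, coeff_X_pow]
      split_ifs <;> simp
    have hj1 : j = n + 1 ∨ j = n := by
      by_contra hcon
      rw [not_or] at hcon
      have := hex' j
      rw [hcoeff j, if_neg hcon.1, if_neg hcon.2, add_zero] at this
      exact this hj
    rcases hj1 with rfl | rfl
    · -- leading coefficient is a unit
      left
      have hlead : f.leadingCoeff = f.coeff (n + 1) := by rw [leadingCoeff, hn]
      rw [hlead] at hc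
      obtain ⟨a, ha⟩ := hj
      refine ⟨↑a⁻¹ * c, ?_⟩
      rw [map_mul, hc, ← ha, ← mul_assoc, ← map_mul, Units.inv_mul, map_one, one_mul]
    · -- the coefficient just below is a unit, the leading coefficient is not
      right
      have hcu : IsUnit c := by
        have h1 := hex' j
        rw [hcoeff j, if_neg (by omega), if_pos rfl] at h1
        have h2 : IsUnit ((f.coeff j + c) + (-c)) := by rwa [add_neg_cancel_right]
        rcases IsLocalRing.isUnit_or_isUnit_of_isUnit_add h2 with h3 | h3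
        · exact absurd h3 h1
        · exact IsUnit.neg_iff c |>.1 h3
      obtain ⟨c', hc'⟩ := hcu
      refine ⟨f.leadingCoeff * ↑c'⁻¹, ?_⟩
      have hcne : algebraMap R L c ≠ 0 := by
        rw [← hc']
        exact (c'.isUnit.map (algebraMap R L)).ne_zero
      have hune : u ≠ 0 := by
        rintro rfl
        rw [mul_zero] at hc
        exact hcne hc
      have h4 : algebraMap R L (↑c'⁻¹) = (algebraMap R L c)⁻¹ := by
        rw [eq_comm, inv_eq_iff_eq_inv, ← hc']
        refine (inv_eq_of_mul_eq_one_left ?_).symm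
        rw [← map_mul, Units.mul_inv, map_one]
      have hlne : algebraMap R L f.leadingCoeff ≠ 0 := by
        intro h0
        rw [h0, zero_mul] at hc
        exact hcne hc
      rw [map_mul, h4, hc, mul_inv, ← mul_assoc, mul_inv_cancel₀ hlne, one_mul]

section Frob

local notation "Qbar" => AlgebraicClosure ℚ
local notation "GQ" => (AlgebraicClosure ℚ ≃ₐ[ℚ] AlgebraicClosure ℚ)
local notation "Zbar" => integralClosure ℤ (AlgebraicClosure ℚ)

local instance isAlgebraicQbar_h9 : Algebra.IsAlgebraic ℚ Qbar := AlgebraicClosure.isAlgebraic ℚ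
local instance isAlgClosureQbar_h9 : IsAlgClosure ℚ Qbar := ⟨inferInstance, inferInstance⟩

local instance isAlgebraicIntQbar_h9 : Algebra.IsAlgebraic ℤ Qbar := by
  refine ⟨fun x => ?_⟩
  exact (IsFractionRing.isAlgebraic_iff ℤ ℚ Qbar).2 (Algebra.IsAlgebraic.isAlgebraic x)

local instance isFractionRingZbar_h9 : IsFractionRing Zbar Qbar :=
  integralClosure.isFractionRing_of_algebraic (fun x hx => by simpa using hx)

section Top

local instance topZbar_h9 : TopologicalSpace Zbar := ⊥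
local instance discreteZbar_h9 : DiscreteTopology Zbar := ⟨rfl⟩

lemma continuousSMul_Zbar : ContinuousSMul GQ Zbar := by
  refine ⟨?_⟩
  rw [continuous_prod_of_discrete_right]
  intro b
  rw [continuous_discrete_rng]
  intro c
  rw [isOpen_iff_mem_nhds]
  intro σ hσ
  -- the coset `σ • fixingSubgroup ℚ(b)`
  let E : IntermediateField ℚ Qbar := IntermediateField.adjoin ℚ {(b : Qbar)}
  haveI : FiniteDimensional ℚ E :=
    IntermediateField.adjoin.finiteDimensional (Algebra.IsIntegral.isIntegral (b : Qbar))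
  have hopen : IsOpen ((fun τ : GQ => σ * τ) '' (E.fixingSubgroup : Set GQ)) :=
    (Homeomorph.mulLeft σ).isOpenMap _ (IntermediateField.fixingSubgroup_isOpen E)
  refine Filter.mem_of_superset (hopen.mem_nhds ⟨1, one_mem _, mul_one σ⟩) ?_
  rintro _ ⟨τ, hτ, rfl⟩
  have hτb : τ (b : Qbar) = b :=
    hτ ⟨(b : Qbar), IntermediateField.mem_adjoin_simple_self ℚ _⟩
  show (σ * τ) • b = c
  rw [← hσ]
  apply Subtype.ext
  show σ (τ (b : Qbar)) = σ (b : Qbar)
  rw [hτb]

lemma isInvariant_Zbar : Algebra.IsInvariant ℤ Zbar GQ := by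
  refine ⟨fun b hb => ?_⟩
  have h1 : (b : Qbar) ∈ (⊥ : IntermediateField ℚ Qbar) :=
    (InfiniteGalois.mem_bot_iff_fixed _).2 (fun f => congrArg Subtype.val (hb f))
  obtain ⟨q, hq⟩ := IntermediateField.mem_bot.1 h1
  have hint : IsIntegral ℤ q :=
    (isIntegral_algebraMap_iff (algebraMap ℚ Qbar).injective).1 (hq ▸ b.2)
  obtain ⟨m, hm⟩ := IsIntegrallyClosed.isIntegral_iff.1 hint
  refine ⟨m, Subtype.ext ?_⟩
  rw [← hq, ← hm]
  simp

/-- A maximal ideal of `Zbar` over `ℓ` together with an element of its stabiliser that acts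
as the `ℓ`-power map on the residue field. -/
lemma exists_stabilizer_frobenius (ℓ : ℕ) (hℓ : ℓ.Prime) :
    ∃ (Q : Ideal Zbar) (σ : GQ), Q.IsMaximal ∧ ((ℓ : ℤ) : Zbar) ∈ Q ∧
      (∀ n : ℤ, (n : Zbar) ∈ Q → (ℓ : ℤ) ∣ n) ∧ σ • Q = Q ∧
      ∀ b : Zbar, σ • b - b ^ ℓ ∈ Q := by
  haveI : Fact ℓ.Prime := ⟨hℓ⟩
  let P : Ideal ℤ := Ideal.span {(ℓ : ℤ)}
  haveI hPmax : P.IsMaximal := by
    have hprime : Prime (ℓ : ℤ) := Nat.prime_iff_prime_int.1 hℓ
    exact PrincipalIdealRing.isMaximal_of_irreducible hprime.irreducible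
  obtain ⟨Q, hQmax, hQP⟩ := Ideal.exists_ideal_over_maximal_of_isIntegral (S := Zbar) P (by
    have : RingHom.ker (algebraMap ℤ Zbar) = ⊥ := by
      rw [RingHom.ker_eq_bot_iff_eq_zero]
      intro x hx
      have := congrArg Subtype.val hx
      simpa using this
    rw [this]; exact bot_le)
  haveI := hQmax
  haveI hlo : Q.LiesOver P := ⟨hQP.symm⟩
  haveI := continuousSMul_Zbar
  haveI := isInvariant_Zbar
  -- the residue fields
  letI : Field (ℤ ⧸ P) := Ideal.Quotient.field P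
  letI : Field (Zbar ⧸ Q) := Ideal.Quotient.field Q
  haveI : Finite (ℤ ⧸ P) := Finite.of_equiv _ (Int.quotientSpanNatEquivZMod ℓ).symm.toEquiv
  haveI : PerfectField (ℤ ⧸ P) := PerfectField.ofFinite
  haveI : Algebra.IsAlgebraic (ℤ ⧸ P) (Zbar ⧸ Q) := inferInstance
  haveI : PerfectField (Zbar ⧸ Q) := Algebra.IsAlgebraic.perfectField (ℤ ⧸ P)
  have hℓQ : ((ℓ : ℤ) : Zbar) ∈ Q := by
    have : (ℓ : ℤ) ∈ Q.comap (algebraMap ℤ Zbar) := by
      rw [hQP]; exact Ideal.subset_span rfl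
    simpa using this
  haveI : CharP (Zbar ⧸ Q) ℓ := by
    rw [CharP.charP_iff_prime_eq_zero hℓ]
    have : ((ℓ : ℤ) : Zbar ⧸ Q) = 0 := by
      have := Ideal.Quotient.eq_zero_iff_mem.2 hℓQ
      simpa using this
    exact_mod_cast this
  haveI : ExpChar (Zbar ⧸ Q) ℓ := ExpChar.prime hℓ
  haveI : PerfectRing (Zbar ⧸ Q) ℓ := PerfectField.toPerfectRing ℓ
  let σbar : (Zbar ⧸ Q) ≃ₐ[ℤ ⧸ P] (Zbar ⧸ Q) :=
    { frobeniusEquiv (Zbar ⧸ Q) ℓ with
      commutes' := by
        intro r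
        obtain ⟨n, rfl⟩ := Ideal.Quotient.mk_surjective r
        have h1 : (Ideal.Quotient.mk P n) = ((n : ℤ) : ℤ ⧸ P) := by simp
        show frobeniusEquiv (Zbar ⧸ Q) ℓ (algebraMap (ℤ ⧸ P) (Zbar ⧸ Q) (Ideal.Quotient.mk P n)) = _
        rw [h1, map_intCast, map_intCast] }
  obtain ⟨⟨σ, hσQ⟩, hσ⟩ := Ideal.Quotient.stabilizerHom_surjective_of_profinite (G := GQ) P Q σbar
  refine ⟨Q, σ, hQmax, hℓQ, ?_, hσQ, ?_⟩
  · intro n hn
    have : n ∈ Q.comap (algebraMap ℤ Zbar) := by simpa using hn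
    rw [hQP] at this
    exact Ideal.mem_span_singleton.1 this
  · intro b
    have h1 := congrArg (fun f => f (Ideal.Quotient.mk Q b)) hσ
    simp only [Ideal.Quotient.stabilizerHom_apply] at h1
    have h2 : σbar (Ideal.Quotient.mk Q b) = (Ideal.Quotient.mk Q b) ^ ℓ := by
      show frobeniusEquiv (Zbar ⧸ Q) ℓ (Ideal.Quotient.mk Q b) = _
      rw [frobeniusEquiv_apply, frobenius_def]
    rw [h2] at h1
    rw [← Ideal.Quotient.eq_zero_iff_mem, map_sub, map_pow, ← h1, sub_eq_zero]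
    rfl

end Top

variable (Q : Ideal Zbar) [hQ : Q.IsMaximal]

/-- The localization of `Zbar` at a maximal ideal, as a subalgebra of `Qbar`. -/
noncomputable def locZbar : Subalgebra Zbar Qbar :=
  Localization.subalgebra.ofField Qbar Q.primeCompl Q.primeCompl_le_nonZeroDivisors

lemma mem_locZbar_iff {x : Qbar} :
    x ∈ locZbar Q ↔ ∃ a s : Zbar, s ∉ Q ∧ x = (a : Qbar) * (s : Qbar)⁻¹ := by
  constructor
  · rintro ⟨a, s, hs, rfl⟩; exact ⟨a, s, hs, rfl⟩
  · rintro ⟨a, s, hs, rfl⟩; exact ⟨a, s, hs, rfl⟩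

lemma coe_mem_locZbar (a : Zbar) : (a : Qbar) ∈ locZbar Q :=
  (mem_locZbar_iff Q).2 ⟨a, 1, (Ideal.ne_top_iff_one Q).1 hQ.ne_top, by simp⟩

noncomputable instance isLocalization_locZbar : IsLocalization.AtPrime (locZbar Q) Q :=
  Localization.subalgebra.isLocalization_ofField Qbar Q.primeCompl Q.primeCompl_le_nonZeroDivisors

instance isLocalRing_locZbar : IsLocalRing (locZbar Q) :=
  IsLocalization.AtPrime.isLocalRing (locZbar Q) Q

lemma locZbar_integrallyClosed (x : Qbar) (hx : IsIntegral (locZbar Q) x) :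
    x ∈ (algebraMap (locZbar Q) Qbar).range := by
  obtain ⟨⟨m, hm⟩, hmx⟩ := IsIntegral.exists_multiple_integral_of_isLocalization Q.primeCompl x hx
  have h2 : IsIntegral ℤ (m • x) := isIntegral_trans _ hmx
  have hm0 : (m : Qbar) ≠ 0 := by
    intro h0
    apply hm
    have : m = 0 := Subtype.ext h0
    rw [this]; exact Q.zero_mem
  refine ⟨⟨x, (mem_locZbar_iff Q).2 ⟨⟨m • x, h2⟩, m, hm, ?_⟩⟩, rfl⟩
  show x = (m • x) * (m : Qbar)⁻¹
  rw [Algebra.smul_def]
  show x = (m : Qbar) * x * (m : Qbar)⁻¹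
  field_simp

lemma locZbar_mem_or_inv_mem {ℓ : ℕ} (hℓ : ℓ.Prime)
    (hQℓ : ∀ n : ℤ, (n : Zbar) ∈ Q → (ℓ : ℤ) ∣ n) (x : Qbar) :
    x ∈ locZbar Q ∨ x⁻¹ ∈ locZbar Q := by
  obtain ⟨p, hp0, hpx⟩ := Algebra.IsAlgebraic.isAlgebraic (R := ℤ) x
  set p' := p.primPart with hp'
  have hp'x : aeval x p' = 0 := by
    have h := hpx
    rw [p.eq_C_content_mul_primPart, map_mul, aeval_C] at h
    rcases mul_eq_zero.1 h with h | h
    · exfalso
      have : p.content = 0 := by simpa using h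
      exact hp0 (content_eq_zero_iff.1 this)
    · exact h
  have hprim : p'.IsPrimitive := p.isPrimitive_primPart
  have hex : ∃ i, ¬ (ℓ : ℤ) ∣ p'.coeff i := by
    by_contra hcon
    have hcon' : ∀ i, (ℓ : ℤ) ∣ p'.coeff i := fun i => by
      by_contra h; exact hcon ⟨i, h⟩
    have hdvd : C (ℓ : ℤ) ∣ p' := (C_dvd_iff_dvd_coeff _ _).2 hcon'
    have hunit := hprim _ hdvd
    exact (Nat.prime_iff_prime_int.1 hℓ).not_isUnit hunit
  obtain ⟨i, hi⟩ := hex
  let f : (locZbar Q)[X] := p'.map (algebraMap ℤ (locZbar Q))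
  have hfx : aeval x f = 0 := by rw [aeval_map_algebraMap]; exact hp'x
  have hfi : IsUnit (f.coeff i) := by
    rw [coeff_map, IsScalarTower.algebraMap_apply ℤ Zbar (locZbar Q)]
    exact IsLocalization.map_units (locZbar Q)
      (⟨algebraMap ℤ Zbar (p'.coeff i), fun hmem => hi (hQℓ _ (by simpa using hmem))⟩ :
        Q.primeCompl)
  rcases mem_range_or_inv_mem_range_of_aeval_eq_zero (locZbar_integrallyClosed Q) f.natDegree f x
    le_rfl hfx ⟨i, hfi⟩ with ⟨y, hy⟩ | ⟨y, hy⟩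
  · left; rw [← hy]; exact y.2
  · right; rw [← hy]; exact y.2

/-- The valuation subring of `Qbar` attached to a maximal ideal of `Zbar` over `ℓ`. -/
noncomputable def valZbar {ℓ : ℕ} (hℓ : ℓ.Prime)
    (hQℓ : ∀ n : ℤ, (n : Zbar) ∈ Q → (ℓ : ℤ) ∣ n) : ValuationSubring Qbar :=
  { (locZbar Q).toSubring with
    mem_or_inv_mem' := locZbar_mem_or_inv_mem Q hℓ hQℓ }

lemma mem_valZbar_iff {ℓ : ℕ} (hℓ : ℓ.Prime)
    (hQℓ : ∀ n : ℤ, (n : Zbar) ∈ Q → (ℓ : ℤ) ∣ n) {x : Qbar} :
    x ∈ valZbar Q hℓ hQℓ ↔ x ∈ locZbar Q := Iff.rfl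

lemma inv_not_mem_locZbar {q : Zbar} (hq : q ∈ Q) (hq0 : q ≠ 0) : (q : Qbar)⁻¹ ∉ locZbar Q := by
  intro h
  obtain ⟨a, s, hs, hqs⟩ := (mem_locZbar_iff Q).1 h
  apply hs
  have hq0' : (q : Qbar) ≠ 0 := fun h0 => hq0 (Subtype.ext h0)
  have hs0 : (s : Qbar) ≠ 0 := by
    intro h0
    apply hs
    have : s = 0 := Subtype.ext h0
    rw [this]; exact Q.zero_mem
  have : s = q * a := by
    apply Subtype.ext
    show (s : Qbar) = (q : Qbar) * (a : Qbar)
    field_simp at hqs
    rw [hqs]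
  rw [this]
  exact Q.mul_mem_right _ hq

lemma mem_nonunits_of_inv_not_mem (A : ValuationSubring Qbar) {x : Qbar} (hx : x⁻¹ ∉ A) :
    x ∈ A.nonunits := by
  rw [ValuationSubring.mem_nonunits_iff]
  by_contra h
  rw [not_lt] at h
  apply hx
  rw [← A.valuation_le_one_iff, map_inv₀]
  exact inv_le_one_of_one_le₀ h

lemma coe_mem_nonunits_valZbar {ℓ : ℕ} (hℓ : ℓ.Prime)
    (hQℓ : ∀ n : ℤ, (n : Zbar) ∈ Q → (ℓ : ℤ) ∣ n) {q : Zbar} (hq : q ∈ Q) :
    (q : Qbar) ∈ (valZbar Q hℓ hQℓ).nonunits := by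
  by_cases hq0 : q = 0
  · rw [hq0, ValuationSubring.mem_nonunits_iff]
    simp
  · exact mem_nonunits_of_inv_not_mem _ (inv_not_mem_locZbar Q hq hq0)

lemma smul_mem_locZbar {τ : GQ} (hτ : τ • Q = Q) {x : Qbar} (hx : x ∈ locZbar Q) :
    τ x ∈ locZbar Q := by
  obtain ⟨a, s, hs, rfl⟩ := (mem_locZbar_iff Q).1 hx
  refine (mem_locZbar_iff Q).2 ⟨τ • a, τ • s, ?_, ?_⟩
  · intro h
    rw [← hτ, Ideal.smul_mem_pointwise_smul_iff] at h
    exact hs h
  · rw [map_mul, map_inv₀]
    rfl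

lemma mem_decompositionSubgroup_valZbar {ℓ : ℕ} (hℓ : ℓ.Prime)
    (hQℓ : ∀ n : ℤ, (n : Zbar) ∈ Q → (ℓ : ℤ) ∣ n) {σ : GQ} (hσ : σ • Q = Q) :
    σ ∈ (valZbar Q hℓ hQℓ).decompositionSubgroup ℚ := by
  rw [MulAction.mem_stabilizer_iff]
  apply SetLike.ext
  intro x
  rw [ValuationSubring.mem_pointwise_smul_iff_inv_smul_mem]
  have hσ' : σ⁻¹ • Q = Q := by
    conv_lhs => rw [← hσ]
    rw [inv_smul_smul]
  constructor
  · intro h
    have := smul_mem_locZbar Q hσ h
    rwa [AlgEquiv.smul_def, AlgEquiv.aut_inv, AlgEquiv.apply_symm_apply] at this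
  · intro h
    exact smul_mem_locZbar Q hσ' h

/-- **Existence of Frobenius elements**: for every prime `ℓ` there are a valuation subring of
`AlgebraicClosure ℚ` over `ℓ` and a Frobenius element for it. -/
theorem exists_isFrobeniusAt (ℓ : ℕ) (hℓ : ℓ.Prime) :
    ∃ (A : ValuationSubring Qbar) (σ : GQ), A.LiesOverPrime ℓ ∧ A.IsFrobeniusAt σ ℓ := by
  obtain ⟨Q, σ, hQmax, hℓQ, hQℓ, hσQ, hσ⟩ := exists_stabilizer_frobenius ℓ hℓ
  haveI := hQmax
  refine ⟨valZbar Q hℓ hQℓ, σ, ?_, mem_decompositionSubgroup_valZbar Q hℓ hQℓ hσQ, ?_⟩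
  · have := coe_mem_nonunits_valZbar Q hℓ hQℓ hℓQ
    show ((ℓ : ℕ) : Qbar) ∈ _
    simpa using this
  · intro x
    obtain ⟨y, rfl⟩ := IsLocalRing.residue_surjective x
    obtain ⟨a, s, hs, hy⟩ := (mem_locZbar_iff Q).1 y.2
    have hs0 : (s : Qbar) ≠ 0 := by
      intro h0
      apply hs
      have : s = 0 := Subtype.ext h0
      rw [this]; exact Q.zero_mem
    let a' : valZbar Q hℓ hQℓ := ⟨a, coe_mem_locZbar Q a⟩
    let s' : valZbar Q hℓ hQℓ := ⟨s, coe_mem_locZbar Q s⟩
    have hys : y * s' = a' := Subtype.ext (by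
      show (y : Qbar) * (s : Qbar) = (a : Qbar)
      rw [hy]; field_simp)
    have key : ∀ b : Zbar,
        (⟨σ, mem_decompositionSubgroup_valZbar Q hℓ hQℓ hσQ⟩ :
          (valZbar Q hℓ hQℓ).decompositionSubgroup ℚ) •
          IsLocalRing.residue (valZbar Q hℓ hQℓ) ⟨b, coe_mem_locZbar Q b⟩ =
        (IsLocalRing.residue (valZbar Q hℓ hQℓ) ⟨b, coe_mem_locZbar Q b⟩) ^ ℓ := by
      intro b
      rw [← IsLocalRing.ResidueField.residue_smul, ← map_pow, ← sub_eq_zero, ← map_sub,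
        IsLocalRing.residue_eq_zero_iff]
      have hq := coe_mem_nonunits_valZbar Q hℓ hQℓ (hσ b)
      rw [ValuationSubring.mem_nonunits_iff_exists_mem_maximalIdeal] at hq
      obtain ⟨hmem, hmax⟩ := hq
      exact hmax
    have hs_ne : IsLocalRing.residue (valZbar Q hℓ hQℓ) s' ≠ 0 := by
      rw [Ne, IsLocalRing.residue_eq_zero_iff, IsLocalRing.mem_maximalIdeal, mem_nonunits_iff,
        not_not]
      refine isUnit_iff_exists_inv.2 ⟨⟨(s : Qbar)⁻¹, ?_⟩, Subtype.ext (mul_inv_cancel₀ hs0)⟩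
      exact (mem_locZbar_iff Q).2 ⟨1, s, hs, by simp⟩
    have hx : IsLocalRing.residue (valZbar Q hℓ hQℓ) y =
        IsLocalRing.residue (valZbar Q hℓ hQℓ) a' *
          (IsLocalRing.residue (valZbar Q hℓ hQℓ) s')⁻¹ := by
      rw [← hys, map_mul, mul_inv_cancel_right₀ hs_ne]
    rw [hx, smul_mul', smul_inv'', key a, key s, mul_pow, inv_pow]

end Frob

end Fermat.Agent.H9
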